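import Mathlib

/-!
# S26 / T7a-4 : Nullstellensatz for `K`-points of a finitely generated algebra
-/

set_option autoImplicit false

universe u

namespace Fermat.Agent.S26

open MvPolynomial

theorem T7a.exists_algHom_of_isMaximal {K D : Type*} [Field K] [IsAlgClosed K] [CommRing D]
    [Algebra K D] [Algebra.FiniteType K D] (n : Ideal D) [n.IsMaximal] :
    ∃ η : D →ₐ[K] K, RingHom.ker η = n := by
  let _ : Field (D ⧸ n) := Ideal.Quotient.field n
  have hft : Algebra.FiniteType K (D ⧸ n) :=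
    Algebra.FiniteType.of_surjective (Ideal.Quotient.mkₐ K n) (Ideal.Quotient.mkₐ_surjective K n)
  have hfin : Module.Finite K (D ⧸ n) := finite_of_finite_type_of_isJacobsonRing K (D ⧸ n)
  have hint : Algebra.IsIntegral K (D ⧸ n) := Algebra.IsIntegral.of_finite K (D ⧸ n)
  have hbij : Function.Bijective (algebraMap K (D ⧸ n)) :=
    IsAlgClosed.algebraMap_bijective_of_isIntegral
  let e : K ≃ₐ[K] (D ⧸ n) := AlgEquiv.ofBijective (Algebra.ofId K (D ⧸ n)) hbij
  refine ⟨(e.symm : (D ⧸ n) →ₐ[K] K).comp (Ideal.Quotient.mkₐ K n), ?_⟩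
  ext x
  rw [RingHom.mem_ker]
  show e.symm (Ideal.Quotient.mk n x) = 0 ↔ _
  rw [map_eq_zero_iff _ e.symm.injective, Ideal.Quotient.eq_zero_iff_mem]

theorem T7a.ker_le_radical {K D : Type*} [Field K] [IsAlgClosed K] [CommRing D]
    [Algebra K D] [Algebra.FiniteType K D] (ε : D →ₐ[K] K) (J : Ideal D)
    (h : ∀ η : D →ₐ[K] K, J ≤ RingHom.ker η → η = ε) : RingHom.ker ε ≤ J.radical := by
  have hjac : IsJacobsonRing D := isJacobsonRing_of_finiteType (A := K) (B := D)
  rw [Ideal.radical_eq_jacobson, Ideal.jacobson]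
  refine le_sInf ?_
  rintro M ⟨hJM, hM⟩
  obtain ⟨η, hη⟩ := T7a.exists_algHom_of_isMaximal (K := K) M
  have h1 := h η (by rw [hη]; exact hJM)
  rw [← h1, hη]

theorem T7a.ker_le_of_le_sup_sq {K D : Type*} [Field K] [IsAlgClosed K] [CommRing D]
    [Algebra K D] [Algebra.FiniteType K D] (ε : D →ₐ[K] K) (J : Ideal D)
    (h : ∀ η : D →ₐ[K] K, J ≤ RingHom.ker η → η = ε)
    (h2 : RingHom.ker ε ≤ J ⊔ (RingHom.ker ε) ^ 2) : RingHom.ker ε ≤ J := by
  have hnoeth : IsNoetherianRing D := Algebra.FiniteType.isNoetherianRing K D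
  set m : Ideal D := RingHom.ker ε with hm
  obtain ⟨k, hk⟩ := Ideal.exists_pow_le_of_le_radical_of_fg (T7a.ker_le_radical ε J h)
    (IsNoetherian.noetherian m)
  have key : ∀ j : ℕ, m ≤ J ⊔ m ^ (j + 1) := by
    intro j
    induction j with
    | zero => rw [zero_add, pow_one]; exact le_sup_right
    | succ j ih =>
      refine h2.trans (sup_le le_sup_left ?_)
      calc m ^ 2 = m * m := pow_two m
        _ ≤ (J ⊔ m ^ (j + 1)) * m := Ideal.mul_mono_left ih
        _ = J * m ⊔ m ^ (j + 1) * m := Ideal.sup_mul _ _ _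
        _ ≤ J ⊔ m ^ (j + 1 + 1) := sup_le_sup Ideal.mul_le_left (pow_succ m (j + 1)).ge
  have h3 : m ^ (k + 1) ≤ J := (Ideal.pow_le_pow_right (Nat.le_succ k)).trans hk
  exact (key k).trans (sup_le le_rfl h3)

end Fermat.Agent.S26
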