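import Mathlib

/-!
# S26 / T7a-0 : homogeneous polynomials scale
-/

set_option autoImplicit false

namespace Fermat.Agent.S26

open MvPolynomial

theorem T7a.aeval_mul_of_isHomogeneous {K A σ : Type*} [CommRing K] [CommRing A] [Algebra K A]
    {G : MvPolynomial σ K} {e : ℕ} (hG : G.IsHomogeneous e) (lam : A) (w : σ → A) :
    aeval (fun i => lam * w i) G = lam ^ e * aeval w G := by
  rw [aeval_def, aeval_def, eval₂_eq, eval₂_eq, Finset.mul_sum]
  refine Finset.sum_congr rfl fun d hd => ?_
  have hdeg : ∑ i ∈ d.support, d i = e := by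
    have := hG (mem_support_iff.mp hd)
    simpa [Finsupp.weight_apply, Finsupp.sum] using this
  simp only [mul_pow, Finset.prod_mul_distrib, Finset.prod_pow_eq_pow_sum]
  rw [hdeg]
  ring

theorem T7a.eval_mul_of_isHomogeneous {K σ : Type*} [CommRing K]
    {G : MvPolynomial σ K} {e : ℕ} (hG : G.IsHomogeneous e) (lam : K) (w : σ → K) :
    eval (fun i => lam * w i) G = lam ^ e * eval w G := by
  have := T7a.aeval_mul_of_isHomogeneous (A := K) hG lam w
  simpa [aeval_eq_eval] using this

end Fermat.Agent.S26
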