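import Mathlib
import Fermat.Agent.S26.Alg.T7a.Scale

/-!
# S26 / T7a-2 : a nonzero homogeneous polynomial over an infinite field is nonzero at some `(1, c)`
-/

set_option autoImplicit false

universe u

namespace Fermat.Agent.S26

open MvPolynomial

theorem T7a.exists_eval_ne_zero {K ι : Type*} [Field K] [Infinite K]
    {G : MvPolynomial (Option ι) K} {e : ℕ} (hG : G.IsHomogeneous e) (h0 : G ≠ 0) :
    ∃ c : ι → K, eval (fun o : Option ι => o.elim 1 c) G ≠ 0 := by
  have h1 : G * X none ≠ 0 := mul_ne_zero h0 (X_ne_zero _)
  obtain ⟨a, ha⟩ : ∃ a : Option ι → K, eval a (G * X none) ≠ 0 := by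
    by_contra hcon
    push Not at hcon
    exact h1 (MvPolynomial.funext fun x => by rw [hcon x, map_zero])
  rw [map_mul, eval_X] at ha
  have haG : eval a G ≠ 0 := left_ne_zero_of_mul ha
  have ha0 : a none ≠ 0 := right_ne_zero_of_mul ha
  refine ⟨fun i => a (some i) / a none, fun h => haG ?_⟩
  have hEq : a = fun o : Option ι => a none * (o.elim 1 (fun i => a (some i) / a none)) := by
    funext o
    cases o with
    | none => simp
    | some i => simp only [Option.elim_some]; field_simp
  rw [hEq, T7a.eval_mul_of_isHomogeneous hG, h, mul_zero]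

end Fermat.Agent.S26
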