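import Mathlib
import Fermat.Agent.S26.Alg.T7a.Scale

/-!
# S26 / T7a-1 : more than `trdeg + 1` elements of a domain satisfy a nonzero homogeneous relation
-/

set_option autoImplicit false

universe u

namespace Fermat.Agent.S26

open MvPolynomial

theorem T7a.homog_trdeg_polynomial {K D : Type u} [Field K] [CommRing D] [IsDomain D]
    [Algebra K D] : Algebra.trdeg K (Polynomial D) = Algebra.trdeg K D + 1 := by
  rw [← trdeg_add_eq K D (A := Polynomial D), Polynomial.trdeg_of_isDomain]

theorem T7a.homog_aeval_component {K D : Type u} [Field K] [CommRing D]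
    [Algebra K D] {σ : Type} (w : σ → D) {G : MvPolynomial σ K} {e : ℕ} (hG : G.IsHomogeneous e) :
    aeval (fun i => (Polynomial.X : Polynomial D) * Polynomial.C (w i)) G =
      Polynomial.X ^ e * Polynomial.C (aeval w G) := by
  rw [T7a.aeval_mul_of_isHomogeneous hG]
  congr 1
  exact MvPolynomial.aeval_algebraMap_apply (Polynomial D) w G

theorem T7a.exists_homogeneous_relation {K D : Type u} [Field K] [CommRing D] [IsDomain D]
    [Algebra K D] {σ : Type} [Fintype σ] (w : σ → D)
    (h : Algebra.trdeg K D + 1 < (Fintype.card σ : Cardinal.{u})) :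
    ∃ (e : ℕ) (G : MvPolynomial σ K), G ≠ 0 ∧ G.IsHomogeneous e ∧ aeval w G = 0 := by
  classical
  have hnot : ¬ AlgebraicIndependent K
      (fun i => (Polynomial.X : Polynomial D) * Polynomial.C (w i)) := by
    intro hind
    have h1 := hind.lift_cardinalMk_le_trdeg
    rw [T7a.homog_trdeg_polynomial, Cardinal.mk_fintype, Cardinal.lift_natCast,
      Cardinal.lift_id'] at h1
    exact absurd h (not_lt.2 h1)
  rw [algebraicIndependent_iff] at hnot
  push Not at hnot
  obtain ⟨P, hP, hP0⟩ := hnot
  have hcomp : ∀ e, aeval w (homogeneousComponent e P) = 0 := by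
    intro e
    have h1 : aeval (fun i => (Polynomial.X : Polynomial D) * Polynomial.C (w i)) P =
        ∑ i ∈ Finset.range (P.totalDegree + 1),
          Polynomial.X ^ i * Polynomial.C (aeval w (homogeneousComponent i P)) := by
      conv_lhs => rw [← sum_homogeneousComponent P, map_sum]
      exact Finset.sum_congr rfl fun i _ =>
        T7a.homog_aeval_component w (homogeneousComponent_isHomogeneous i P)
    rw [hP] at h1
    have h2 := congrArg (fun Q => Polynomial.coeff Q e) h1
    simp only [Polynomial.coeff_zero, Polynomial.finsetSum_coeff, Polynomial.coeff_X_pow_mul',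
      Polynomial.coeff_C] at h2
    by_cases he : e ∈ Finset.range (P.totalDegree + 1)
    · rw [Finset.sum_eq_single e] at h2
      · simpa using h2.symm
      · intro b _ hb
        by_cases hbe : b ≤ e
        · rw [if_pos hbe, if_neg (by omega)]
        · rw [if_neg hbe]
      · intro hcon
        exact absurd he hcon
    · rw [homogeneousComponent_eq_zero e P (by
        rw [Finset.mem_range] at he
        omega), map_zero]
  obtain ⟨e, he⟩ : ∃ e, homogeneousComponent e P ≠ 0 := by
    by_contra hcon
    push Not at hcon
    apply hP0
    rw [← sum_homogeneousComponent P]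
    exact Finset.sum_eq_zero fun i _ => hcon i
  exact ⟨e, _, he, homogeneousComponent_isHomogeneous e P, hcomp e⟩

end Fermat.Agent.S26
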