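import Mathlib

/-!
# S26 T7a-3: a homogeneous relation `G(t, w) = 0` with `G(1, c) ≠ 0` makes `t` integral over
`K[w_i - c_i t]`.
-/

set_option autoImplicit false

universe u

namespace Fermat.Agent.S26

open MvPolynomial

/-- Degree and top coefficient of a product of powers of polynomials of degree `≤ 1`. -/
theorem T7a.Integral.prod_aux {B σ : Type*} [CommRing B] (v : σ → Polynomial B) (a : σ → B)
    (hv : ∀ o, (v o).natDegree ≤ 1) (ha : ∀ o, (v o).coeff 1 = a o) (d : σ → ℕ) (s : Finset σ) :
    (∏ i ∈ s, v i ^ d i).natDegree ≤ ∑ i ∈ s, d i ∧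
      (∏ i ∈ s, v i ^ d i).coeff (∑ i ∈ s, d i) = ∏ i ∈ s, a i ^ d i := by
  classical
  induction s using Finset.induction_on with
  | empty => simp
  | insert i s hi ih =>
    rw [Finset.prod_insert hi, Finset.sum_insert hi, Finset.prod_insert hi]
    have h1 : (v i ^ d i).natDegree ≤ d i := by
      simpa using Polynomial.natDegree_pow_le_of_le (d i) (hv i)
    have h2 : (v i ^ d i).coeff (d i) = a i ^ d i := by
      have := Polynomial.coeff_pow_of_natDegree_le (hv i) (m := d i)
      simpa [ha] using this
    refine ⟨Polynomial.natDegree_mul_le_of_le h1 ih.1, ?_⟩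
    rw [Polynomial.coeff_mul_add_eq_of_natDegree_le h1 ih.1, h2, ih.2]

/-- Substituting polynomials of degree `≤ 1` in a homogeneous polynomial of degree `e`. -/
theorem T7a.Integral.aeval_aux {K B σ : Type*} [Field K] [CommRing B] [Algebra K B]
    {G : MvPolynomial σ K} {e : ℕ} (hG : G.IsHomogeneous e) (v : σ → Polynomial B) (a : σ → K)
    (hv : ∀ o, (v o).natDegree ≤ 1) (ha : ∀ o, (v o).coeff 1 = algebraMap K B (a o)) :
    (aeval v G).natDegree ≤ e ∧ (aeval v G).coeff e = algebraMap K B (eval a G) := by
  have hdeg : ∀ d ∈ G.support, ∑ i ∈ d.support, d i = e := by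
    intro d hd
    have := hG (mem_support_iff.mp hd)
    have h2 : Finsupp.degree d = e := by
      rw [Finsupp.degree_eq_weight_one]; exact this
    simpa [Finsupp.degree] using h2
  rw [aeval_def, eval₂_eq, eval_eq, map_sum]
  constructor
  · apply Polynomial.natDegree_sum_le_of_forall_le
    intro d hd
    have h := (T7a.Integral.prod_aux v (fun o => algebraMap K B (a o)) hv ha d d.support).1
    rw [hdeg d hd] at h
    rw [Polynomial.algebraMap_apply]
    exact (Polynomial.natDegree_C_mul_le _ _).trans h
  · rw [Polynomial.finsetSum_coeff]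
    apply Finset.sum_congr rfl
    intro d hd
    have h := (T7a.Integral.prod_aux v (fun o => algebraMap K B (a o)) hv ha d d.support).2
    rw [hdeg d hd] at h
    rw [Polynomial.algebraMap_apply, Polynomial.coeff_C_mul, h]
    simp

theorem T7a.isIntegral_of_homogeneous {K A ι : Type*} [Field K] [CommRing A] [Algebra K A]
    {G : MvPolynomial (Option ι) K} {e : ℕ} (hG : G.IsHomogeneous e) (c : ι → K)
    (hc : eval (fun o : Option ι => o.elim 1 c) G ≠ 0) (w : ι → A) (t : A)
    (h0 : aeval (fun o : Option ι => o.elim t w) G = 0) :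
    IsIntegral (Algebra.adjoin K (Set.range fun i => w i - algebraMap K A (c i) * t)) t := by
  set B := Algebra.adjoin K (Set.range fun i => w i - algebraMap K A (c i) * t) with hB
  let b : ι → B := fun i => ⟨w i - algebraMap K A (c i) * t, Algebra.subset_adjoin ⟨i, rfl⟩⟩
  let v : Option ι → Polynomial B := fun o =>
    o.elim Polynomial.X (fun i => Polynomial.C (b i) + Polynomial.C (algebraMap K B (c i)) * Polynomial.X)
  have hv : ∀ o, (v o).natDegree ≤ 1 := by
    intro o
    cases o with
    | none => exact Polynomial.natDegree_X_le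
    | some i =>
      change (Polynomial.C (b i) + Polynomial.C (algebraMap K B (c i)) * Polynomial.X).natDegree ≤ 1
      refine (Polynomial.natDegree_add_le _ _).trans (max_le (by simp) ?_)
      exact (Polynomial.natDegree_C_mul_le _ _).trans Polynomial.natDegree_X_le
  have ha : ∀ o, (v o).coeff 1 = algebraMap K B ((fun o : Option ι => o.elim 1 c) o) := by
    intro o
    cases o with
    | none => simp [v]
    | some i => simp [v]
  obtain ⟨hd, hcoef⟩ := T7a.Integral.aeval_aux hG v _ hv ha
  set u := eval (fun o : Option ι => o.elim 1 c) G with hu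
  have hQ : Polynomial.aeval t (aeval v G) = 0 := by
    have h1 := MvPolynomial.comp_aeval_apply (f := v) ((Polynomial.aeval t).restrictScalars K) G
    have h2 : (fun o => ((Polynomial.aeval t).restrictScalars K : Polynomial B →ₐ[K] A) (v o))
        = fun o : Option ι => o.elim t w := by
      funext o
      cases o with
      | none => simp [v]
      | some i => simp [v, b]
    rw [h2, h0] at h1
    exact h1
  refine ⟨Polynomial.C (algebraMap K B u⁻¹) * aeval v G, ?_, ?_⟩
  · apply Polynomial.monic_of_natDegree_le_of_coeff_eq_one e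
      ((Polynomial.natDegree_C_mul_le _ _).trans hd)
    rw [Polynomial.coeff_C_mul, hcoef, ← map_mul, inv_mul_cancel₀ hc, map_one]
  · rw [← Polynomial.aeval_def, map_mul, hQ, mul_zero]

end Fermat.Agent.S26
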