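import Mathlib

/-!
# S26 / T7a-5 : Nakayama argument, `r D ⊆ D'` for some `r ∈ D'` with `ε r = 1`
-/

set_option autoImplicit false

universe u

namespace Fermat.Agent.S26

open MvPolynomial

theorem T7a.exists_mul_mem {K D : Type*} [Field K] [CommRing D] [Algebra K D]
    (D' : Subalgebra K D) (hfin : Module.Finite D' D) (ε : D →ₐ[K] K)
    (hm : RingHom.ker ε ≤ Ideal.span ((D' : Set D) ∩ (RingHom.ker ε : Ideal D))) :
    ∃ r ∈ D', ε r = 1 ∧ ∀ d : D, r * d ∈ D' := by
  let N : Submodule D' D := LinearMap.range (Algebra.linearMap D' D)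
  let I : Ideal D' := RingHom.ker (ε.comp D'.val)
  have hN : ∀ d : D, d ∈ N ↔ d ∈ D' := by
    intro d
    constructor
    · rintro ⟨x, rfl⟩
      exact x.2
    · intro h
      exact ⟨⟨d, h⟩, rfl⟩
  have key : ∀ z ∈ Ideal.span ((D' : Set D) ∩ (RingHom.ker ε : Ideal D)), ∀ a : D,
      (Submodule.Quotient.mk (a * z) : D ⧸ N) ∈ I • (⊤ : Submodule D' (D ⧸ N)) := by
    intro z hz
    induction hz using Submodule.span_induction with
    | mem s hs =>
      intro a
      have h1 : (Submodule.Quotient.mk (a * s) : D ⧸ N)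
          = (⟨s, hs.1⟩ : D') • (Submodule.Quotient.mk a : D ⧸ N) := by
        rw [← Submodule.Quotient.mk_smul]
        congr 1
        exact mul_comm a s
      rw [h1]
      exact Submodule.smul_mem_smul hs.2 Submodule.mem_top
    | zero =>
      intro a
      rw [mul_zero, Submodule.Quotient.mk_zero]
      exact Submodule.zero_mem _
    | add x y _ _ hx hy =>
      intro a
      rw [mul_add, Submodule.Quotient.mk_add]
      exact Submodule.add_mem _ (hx a) (hy a)
    | smul c x _ hx =>
      intro a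
      rw [smul_eq_mul, ← mul_assoc]
      exact hx (a * c)
  have hle : (⊤ : Submodule D' (D ⧸ N)) ≤ I • (⊤ : Submodule D' (D ⧸ N)) := by
    intro x _
    obtain ⟨d, rfl⟩ := Submodule.Quotient.mk_surjective N x
    have h1 : d - algebraMap K D (ε d) ∈ RingHom.ker ε := by
      rw [RingHom.mem_ker, map_sub, AlgHom.commutes]
      exact sub_self _
    have h2 := key _ (hm h1) 1
    rw [one_mul, Submodule.Quotient.mk_sub] at h2
    have h3 : (Submodule.Quotient.mk (algebraMap K D (ε d)) : D ⧸ N) = 0 :=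
      (Submodule.Quotient.mk_eq_zero N).2 ((hN _).2 (D'.algebraMap_mem _))
    rwa [h3, sub_zero] at h2
  obtain ⟨r, hr1, hr⟩ := Submodule.exists_sub_one_mem_and_smul_eq_zero_of_fg_of_le_smul I
    (⊤ : Submodule D' (D ⧸ N)) Module.Finite.fg_top hle
  refine ⟨r, r.2, ?_, fun d => ?_⟩
  · have h1 : ε ((r : D) - 1) = 0 := hr1
    rw [map_sub, map_one, sub_eq_zero] at h1
    exact h1
  · have h1 := hr (Submodule.Quotient.mk d) Submodule.mem_top
    rw [← Submodule.Quotient.mk_smul, Submodule.Quotient.mk_eq_zero, hN] at h1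
    exact h1

end Fermat.Agent.S26
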